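import Fermat.Agent.Root.SummarySzemerediTrotter

/-!
# Consequences of the incidence bound

Elekes's sum-product bound, distinct distances, the theorem of Sylvester and Gallai (Kelly's proof)
and Beck's weak form of Dirac's conjecture.
-/

set_option autoImplicit false

noncomputable section

namespace FA.IncidenceCor

open Finset Classical
open scoped Pointwise

/-- The line through two points. -/
def lineOf (x y : Fin 2 → ℝ) : Set (Fin 2 → ℝ) := Set.range fun t : ℝ => x + t • (y - x)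

/-- Elekes's bound. -/
theorem elekes : ∃ c : ℝ, 0 < c ∧ ∀ A : Finset ℝ,
    c * (A.card : ℝ) ^ 5 ≤ (((A + A).card : ℝ) * (A * A).card) ^ 2 := by
  obtain ⟨C, hC, hST⟩ := PolyPartition.Summary.szemeredi_trotter
  refine ⟨min (1 / (54 * C ^ 3)) (min (1 / (36 * C ^ 2)) (1 / ((3 * C + 2) ^ 5))), by positivity,
    fun A => ?_⟩
  set c := min (1 / (54 * C ^ 3)) (min (1 / (36 * C ^ 2)) (1 / ((3 * C + 2) ^ 5))) with hc
  set n := A.card with hn
  rcases Nat.eq_zero_or_pos n with h0 | h0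
  · rw [h0]
    simp only [Nat.cast_zero, ne_eq, OfNat.ofNat_ne_zero, not_false_eq_true, zero_pow, mul_zero]
    positivity
  set m : ℝ := ((A + A).card : ℝ) * (A * A).card with hm
  have hAne : A.Nonempty := card_pos.1 h0
  have hm1 : 1 ≤ m := one_le_mul_of_one_le_of_one_le (by exact_mod_cast (hAne.add hAne).card_pos)
    (by exact_mod_cast (hAne.mul hAne).card_pos)
  by_cases hsmall : (n : ℝ) ≤ 3 * C + 2
  · calc c * (n : ℝ) ^ 5 ≤ 1 / ((3 * C + 2) ^ 5) * (3 * C + 2) ^ 5 :=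
          mul_le_mul ((min_le_right _ _).trans (min_le_right _ _))
            (pow_le_pow_left₀ (Nat.cast_nonneg _) hsmall 5) (by positivity) (by positivity)
      _ = 1 := div_mul_cancel₀ 1 (by positivity)
      _ ≤ m ^ 2 := one_le_pow₀ hm1
  rw [not_le] at hsmall
  let mk : ℝ × ℝ → Set (Fin 2 → ℝ) := fun p => Set.range fun t : ℝ => ![p.2, 0] + t • ![1, p.1]
  set L := (A.erase 0 ×ˢ A).image mk with hL
  set S := ((A + A) ×ˢ (A * A)).image fun p => ![p.1, p.2] with hS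
  have hmem : ∀ (p : ℝ × ℝ) (x : Fin 2 → ℝ), x ∈ mk p ↔ x 1 = p.1 * (x 0 - p.2) := by
    intro p x
    constructor
    · rintro ⟨t, rfl⟩
      simp [mul_comm]
    · intro hx
      refine ⟨x 0 - p.2, funext fun i => ?_⟩
      fin_cases i <;> simp [hx, mul_comm]
  have hmkinj : Set.InjOn mk (A.erase 0 ×ˢ A : Finset (ℝ × ℝ)) := by
    intro p hp q _ he
    have hp0 : p.1 ≠ 0 := (mem_erase.1 (mem_product.1 (mem_coe.1 hp)).1).1
    have h1 : (![p.2, 0] : Fin 2 → ℝ) ∈ mk q := he ▸ (hmem p _).2 (by simp)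
    have h2 : (![p.2 + 1, p.1] : Fin 2 → ℝ) ∈ mk q := he ▸ (hmem p _).2 (by simp)
    rw [hmem] at h1 h2
    simp at h1 h2
    have e1 : p.1 = q.1 := by
      rcases h1 with h1 | h1
      · rw [h1] at h2; simpa [h1] using h2
      · rw [h2]; linear_combination q.1 * h1
    refine Prod.ext e1 ?_
    rcases h1 with h1 | h1
    · exact absurd (e1.trans h1) hp0
    · linarith
  have hLcard : (n : ℝ) ^ 2 / 2 ≤ L.card := by
    rw [hL, card_image_of_injOn hmkinj, card_product, Nat.cast_mul, ← hn]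
    have h1 : (n : ℝ) ≤ ((A.erase 0).card : ℝ) + 1 := by
      have := pred_card_le_card_erase (s := A) (a := (0 : ℝ))
      exact_mod_cast (by omega : n ≤ (A.erase 0).card + 1)
    nlinarith
  have hinc : L.card * n ≤ ∑ l ∈ L, (S.filter fun x => x ∈ l).card := by
    rw [← smul_eq_mul, ← sum_const]
    refine sum_le_sum fun l hl => ?_
    obtain ⟨p, hp, rfl⟩ := mem_image.1 hl
    obtain ⟨hp1, hp2⟩ := mem_product.1 hp
    rw [hn]
    refine card_le_card_of_injOn (fun z => ![p.2 + z, p.1 * z]) (fun z hz => ?_) ?_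
    · refine mem_coe.2 (mem_filter.2 ⟨mem_image.2 ⟨(p.2 + z, p.1 * z), mem_product.2
        ⟨add_mem_add hp2 hz, mul_mem_mul (mem_erase.1 hp1).2 hz⟩, rfl⟩, (hmem p _).2 (by simp)⟩)
    · intro z _ w _ he
      simpa using congrFun he 0
  have hScard : (S.card : ℝ) = m := by
    rw [hS, card_image_of_injective _ (fun p q h => Prod.ext (congrFun h 0) (congrFun h 1)),
      card_product, Nat.cast_mul]
  have hmain : (L.card : ℝ) * n ≤ C * ((m * L.card) ^ (2 / 3 : ℝ) + m + L.card) := by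
    rw [← hScard]
    refine le_trans (by exact_mod_cast hinc) (hST S L fun l hl => ?_)
    obtain ⟨p, -, rfl⟩ := mem_image.1 hl
    exact ⟨![p.2, 0], ![1, p.1], fun h => by simpa using congrFun h 0, rfl⟩
  set l : ℝ := (L.card : ℝ) with hl
  set X := (m * l) ^ (2 / 3 : ℝ) with hX
  have hn0 : (0 : ℝ) < n := by exact_mod_cast h0
  have hl0 : 0 < l := lt_of_lt_of_le (by positivity) hLcard
  have hX0 : 0 ≤ X := by positivity
  have hX3 : X ^ 3 = (m * l) ^ 2 := by
    rw [hX, ← Real.rpow_natCast, ← Real.rpow_mul (by positivity)]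
    norm_num
  have hlC : 3 * (C * l) < l * n := by nlinarith
  by_cases hcase : C * m ≤ C * X
  · have h1 : l * n ≤ 3 * C * X := by nlinarith
    have h2 : (l * n) ^ 3 ≤ (3 * C * X) ^ 3 := pow_le_pow_left₀ (by positivity) h1 3
    have h3 : l * (n : ℝ) ^ 3 ≤ 27 * C ^ 3 * m ^ 2 := by
      refine le_of_mul_le_mul_left ?_ (pow_pos hl0 2)
      rw [mul_pow (3 * C) X, hX3] at h2
      linarith
    calc c * (n : ℝ) ^ 5 ≤ 1 / (54 * C ^ 3) * (n : ℝ) ^ 5 :=
          mul_le_mul_of_nonneg_right (min_le_left _ _) (by positivity)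
      _ ≤ m ^ 2 := by
          rw [div_mul_eq_mul_div, one_mul, div_le_iff₀ (by positivity)]
          nlinarith [mul_le_mul_of_nonneg_right hLcard (pow_nonneg hn0.le 3)]
  · have h1 : l * n ≤ 3 * C * m := by nlinarith
    have h2 : (n : ℝ) ^ 3 ≤ 6 * C * m := by
      nlinarith [mul_le_mul_of_nonneg_right hLcard hn0.le]
    calc c * (n : ℝ) ^ 5 ≤ 1 / (36 * C ^ 2) * (n : ℝ) ^ 5 :=
          mul_le_mul_of_nonneg_right ((min_le_right _ _).trans (min_le_left _ _)) (by positivity)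
      _ ≤ m ^ 2 := by
          rw [div_mul_eq_mul_div, one_mul, div_le_iff₀ (by positivity)]
          have h3 : ((n : ℝ) ^ 3) ^ 2 ≤ (6 * C * m) ^ 2 := pow_le_pow_left₀ (by positivity) h2 2
          have h4 : (n : ℝ) ^ 5 ≤ ((n : ℝ) ^ 3) ^ 2 := by
            rw [← pow_mul]
            exact pow_le_pow_right₀ (by exact_mod_cast h0) (by norm_num)
          nlinarith

/-- Distinct distances. -/
theorem distinct_distances : ∃ c : ℝ, 0 < c ∧ ∀ S : Finset (Fin 2 → ℝ), 2 ≤ S.card →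
    c * (S.card : ℝ) ^ (2 / 3 : ℝ) ≤
      (S.offDiag.image fun p => Real.sqrt ((p.1 0 - p.2 0) ^ 2 + (p.1 1 - p.2 1) ^ 2)).card := by
  obtain ⟨C, hC, hU⟩ := PolyPartition.Summary.unit_distance_bound
  refine ⟨1 / (2 * C), by positivity, fun S hS => ?_⟩
  set δ : (Fin 2 → ℝ) × (Fin 2 → ℝ) → ℝ :=
    fun p => Real.sqrt ((p.1 0 - p.2 0) ^ 2 + (p.1 1 - p.2 1) ^ 2) with hδ
  set D := S.offDiag.image δ with hD
  have hfib : ∀ r ∈ D, ((S.offDiag.filter fun p => δ p = r).card : ℝ) ≤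
      C * (S.card : ℝ) ^ (4 / 3 : ℝ) := by
    intro r hr
    obtain ⟨p, hp, rfl⟩ := mem_image.1 hr
    have hne := (mem_offDiag.1 hp).2.2
    have hr0 : 0 < δ p := by
      refine Real.sqrt_pos.2 (lt_of_le_of_ne (by positivity) fun he => hne ?_)
      obtain ⟨e0, e1⟩ := (add_eq_zero_iff_of_nonneg (sq_nonneg _) (sq_nonneg _)).1 he.symm
      funext i
      fin_cases i
      · exact sub_eq_zero.1 (sq_eq_zero_iff.1 e0)
      · exact sub_eq_zero.1 (sq_eq_zero_iff.1 e1)
    set r := δ p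
    let σ : (Fin 2 → ℝ) → (Fin 2 → ℝ) := fun x => r⁻¹ • x
    have hσ : Function.Injective σ := smul_right_injective _ (inv_ne_zero hr0.ne')
    have h := hU (S.image σ)
    rw [card_image_of_injective _ hσ] at h
    refine le_trans (Nat.cast_le.2 ?_) h
    refine card_le_card_of_injOn (fun q => (σ q.1, σ q.2)) (fun q hq => ?_)
      ((hσ.prodMap hσ).injOn)
    obtain ⟨hq1, hq2⟩ := mem_filter.1 hq
    obtain ⟨ha, hb, hab⟩ := mem_offDiag.1 hq1
    refine mem_coe.2 (mem_filter.2 ⟨mem_offDiag.2 ⟨mem_image_of_mem _ ha, mem_image_of_mem _ hb,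
      hσ.ne hab⟩, ?_⟩)
    have h1 : δ q ^ 2 = (q.1 0 - q.2 0) ^ 2 + (q.1 1 - q.2 1) ^ 2 :=
      Real.sq_sqrt (by positivity)
    rw [hq2] at h1
    simp only [σ, Pi.smul_apply, smul_eq_mul]
    field_simp
    linarith
  have htot : (S.offDiag.card : ℝ) ≤ D.card * (C * (S.card : ℝ) ^ (4 / 3 : ℝ)) := by
    rw [card_eq_sum_card_fiberwise (f := δ) (t := D) fun p hp => mem_coe.2 (mem_image_of_mem _ hp),
      Nat.cast_sum, ← nsmul_eq_mul, ← sum_const]
    exact sum_le_sum hfib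
  have hn : (2 : ℝ) ≤ S.card := by exact_mod_cast hS
  set n : ℝ := (S.card : ℝ)
  have hoff : (S.offDiag.card : ℝ) = n * n - n := by
    rw [offDiag_card, Nat.cast_sub (Nat.le_mul_self _), Nat.cast_mul]
  have h23 : n ^ (2 / 3 : ℝ) * n ^ (4 / 3 : ℝ) = n * n := by
    rw [← Real.rpow_add (by linarith), ← sq, ← Real.rpow_natCast]
    norm_num
  have hpos : (0 : ℝ) < n ^ (4 / 3 : ℝ) := by positivity
  rw [div_mul_eq_mul_div, one_mul, div_le_iff₀ (by positivity)]
  refine le_of_mul_le_mul_right ?_ hpos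
  rw [h23]
  nlinarith

/-- Cross product in the plane. -/
def cross (u v : Fin 2 → ℝ) : ℝ := u 0 * v 1 - u 1 * v 0

/-- Squared length. -/
def sqLen (u : Fin 2 → ℝ) : ℝ := u 0 ^ 2 + u 1 ^ 2

lemma sqLen_pos {u : Fin 2 → ℝ} (h : u ≠ 0) : 0 < sqLen u := by
  refine lt_of_le_of_ne (by unfold sqLen; positivity) fun he => h ?_
  obtain ⟨e0, e1⟩ := (add_eq_zero_iff_of_nonneg (sq_nonneg _) (sq_nonneg _)).1 he.symm
  funext i
  fin_cases i
  · exact sq_eq_zero_iff.1 e0
  · exact sq_eq_zero_iff.1 e1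

lemma mem_lineOf_iff {x y z : Fin 2 → ℝ} (hxy : x ≠ y) :
    z ∈ lineOf x y ↔ cross (y - x) (z - x) = 0 := by
  constructor
  · rintro ⟨t, rfl⟩
    simp [cross]; ring
  · intro h
    refine ⟨((y - x) 0 * (z - x) 0 + (y - x) 1 * (z - x) 1) / sqLen (y - x), ?_⟩
    have hN : sqLen (y - x) ≠ 0 := (sqLen_pos (sub_ne_zero.2 hxy.symm)).ne'
    simp only [cross, Pi.sub_apply] at h
    rw [funext_iff, Fin.forall_fin_two]
    constructor
    · simp only [Pi.add_apply, Pi.smul_apply, Pi.sub_apply, smul_eq_mul]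
      field_simp
      simp only [sqLen, Pi.sub_apply] at *
      linear_combination (y 1 - x 1) * h
    · simp only [Pi.add_apply, Pi.smul_apply, Pi.sub_apply, smul_eq_mul]
      field_simp
      simp only [sqLen, Pi.sub_apply] at *
      linear_combination -(y 0 - x 0) * h

/-- The squared distance from `p` to the line through `q` and `r`. -/
def lineDist (T : (Fin 2 → ℝ) × (Fin 2 → ℝ) × (Fin 2 → ℝ)) : ℝ :=
  cross (T.2.2 - T.2.1) (T.1 - T.2.1) ^ 2 / sqLen (T.2.2 - T.2.1)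

/-- The theorem of Sylvester and Gallai. -/
theorem sylvester_gallai (S : Finset (Fin 2 → ℝ))
    (hS : ¬∃ q v : Fin 2 → ℝ, v ≠ 0 ∧ ∀ x ∈ S, x ∈ Set.range fun t : ℝ => q + t • v) :
    ∃ x ∈ S, ∃ y ∈ S, x ≠ y ∧ ∀ z ∈ S, z ∈ lineOf x y → z = x ∨ z = y := by
  set P := (S ×ˢ S ×ˢ S).filter fun T =>
    T.2.1 ≠ T.2.2 ∧ cross (T.2.2 - T.2.1) (T.1 - T.2.1) ≠ 0 with hP
  have hne : P.Nonempty := by
    by_contra hcon
    rw [not_nonempty_iff_eq_empty] at hcon
    apply hS
    rcases S.eq_empty_or_nonempty with rfl | ⟨a, ha⟩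
    · exact ⟨0, ![1, 0], fun h => by simpa using congrFun h 0, by simp⟩
    by_cases hb : ∃ b ∈ S, b ≠ a
    · obtain ⟨b, hb, hba⟩ := hb
      refine ⟨a, b - a, sub_ne_zero.2 hba, fun x hx => ?_⟩
      by_contra hx'
      have : (x, a, b) ∈ P := mem_filter.2 ⟨mem_product.2 ⟨hx, mem_product.2 ⟨ha, hb⟩⟩,
        hba.symm, fun h0 => hx' ((mem_lineOf_iff hba.symm).2 h0)⟩
      rw [hcon] at this
      exact notMem_empty _ this
    · refine ⟨a, ![1, 0], fun h => by simpa using congrFun h 0, fun x hx => ⟨0, ?_⟩⟩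
      have : x = a := by by_contra hxa; exact hb ⟨x, hx, hxa⟩
      simp [this]
  obtain ⟨⟨p, q, r⟩, hT, hmin⟩ := exists_min_image P lineDist hne
  obtain ⟨hmem, hqr, hh⟩ := mem_filter.1 hT
  obtain ⟨hp, hqr'⟩ := mem_product.1 hmem
  obtain ⟨hq, hr⟩ := mem_product.1 hqr'
  simp only at hqr hh hp hq hr
  refine ⟨q, hq, r, hr, hqr, fun z hz hzl => ?_⟩
  by_contra hcon
  rw [not_or] at hcon
  obtain ⟨s, rfl⟩ := hzl
  set v := r - q with hv
  set N := sqLen v with hN
  have hN0 : 0 < N := sqLen_pos (sub_ne_zero.2 hqr.symm)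
  set h := cross v (p - q) with hhd
  set t0 := (v 0 * (p - q) 0 + v 1 * (p - q) 1) / N with ht0
  -- two of the three parameters lie on one side of the foot
  have key : ∀ t1 t2 : ℝ, q + t1 • v ∈ S → q + t2 • v ∈ S → t1 ≠ t2 →
      (t1 - t2) ^ 2 ≤ (t2 - t0) ^ 2 → False := by
    intro t1 t2 h1 h2 h12 hle
    have hx2 : sqLen (q + t2 • v - p) = h ^ 2 / N + (t2 - t0) ^ 2 * N := by
      rw [ht0, hhd]
      field_simp
      simp only [sqLen, cross, hN, Pi.sub_apply, Pi.add_apply, Pi.smul_apply, smul_eq_mul]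
      ring
    have hcr : cross (q + t2 • v - p) (q + t1 • v - p) = (t1 - t2) * (cross (q - p) v) := by
      simp [cross]; ring
    have hflip : cross (q - p) v = h := by simp [hhd, cross]; ring
    have hpos : 0 < h ^ 2 / N := by positivity
    have hlen : 0 < sqLen (q + t2 • v - p) := by
      rw [hx2]; positivity
    have hne2 : p ≠ q + t2 • v := by
      intro he
      rw [← he, sub_self] at hlen
      simp [sqLen] at hlen
    have hTmem : (q + t1 • v, p, q + t2 • v) ∈ P := by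
      refine mem_filter.2 ⟨mem_product.2 ⟨h1, mem_product.2 ⟨hp, h2⟩⟩, hne2, ?_⟩
      simp only
      rw [hcr, hflip]
      exact mul_ne_zero (sub_ne_zero.2 h12) hh
    have h3 := hmin _ hTmem
    simp only [lineDist, ← hv] at h3
    rw [hcr, hflip, hx2, ← hhd, ← hN, mul_pow, le_div_iff₀ (hx2 ▸ hlen)] at h3
    have h4 : (t1 - t2) ^ 2 * h ^ 2 ≤ (t2 - t0) ^ 2 * h ^ 2 :=
      mul_le_mul_of_nonneg_right hle (sq_nonneg h)
    have h5 : h ^ 2 / N * (h ^ 2 / N + (t2 - t0) ^ 2 * N) =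
        (h ^ 2 / N) ^ 2 + (t2 - t0) ^ 2 * h ^ 2 := by field_simp
    nlinarith [pow_pos hpos 2]
  have e0 : q + (0 : ℝ) • v ∈ S := by simpa using hq
  have e1 : q + (1 : ℝ) • v ∈ S := by simpa [hv] using hr
  have s0 : s ≠ 0 := fun h0 => hcon.1 (by simp [h0])
  have s1 : s ≠ 1 := fun h1 => hcon.2 (by simp [h1, hv])
  have side : ∀ a b c : ℝ, q + a • v ∈ S → q + b • v ∈ S → q + c • v ∈ S → a < b → b < c → False := by
    intro a b c ha hb hc hab hbc
    rcases le_or_gt t0 b with h6 | h6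
    · exact key b c hb hc hbc.ne (by nlinarith)
    · exact key b a hb ha hab.ne' (by nlinarith)
  rcases lt_trichotomy s 0 with hs | hs | hs
  · exact side s 0 1 hz e0 e1 hs one_pos
  · exact s0 hs
  · rcases lt_trichotomy s 1 with hs1 | hs1 | hs1
    · exact side 0 s 1 e0 hz e1 hs hs1
    · exact s1 hs1
    · exact side 0 1 s e0 e1 hz one_pos hs1

/-- Beck's weak Dirac theorem. -/
theorem weak_dirac : ∃ c : ℝ, 0 < c ∧ ∀ S : Finset (Fin 2 → ℝ),
    (¬∃ q v : Fin 2 → ℝ, v ≠ 0 ∧ ∀ x ∈ S, x ∈ Set.range fun t : ℝ => q + t • v) →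
      ∃ p ∈ S, c * S.card ≤ ((S.erase p).image (lineOf p)).card := by
  obtain ⟨C, hC, hB⟩ := PolyPartition.Summary.beck
  refine ⟨1 / C, by positivity, fun S hS => ?_⟩
  have hne : S.Nonempty := by
    rw [nonempty_iff_ne_empty]
    rintro rfl
    exact hS ⟨0, ![1, 0], fun h => by simpa using congrFun h 0, by simp⟩
  have hn : (0 : ℝ) < S.card := by exact_mod_cast hne.card_pos
  rcases hB S with ⟨q, v, hv, hl⟩ | hlines
  · push Not at hS
    obtain ⟨p, hp, hpl⟩ := hS q v hv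
    refine ⟨p, hp, ?_⟩
    rw [div_mul_eq_mul_div, one_mul, div_le_iff₀ hC]
    refine hl.trans ?_
    rw [mul_comm C]
    refine mul_le_mul_of_nonneg_right (Nat.cast_le.2 ?_) hC.le
    refine card_le_card_of_injOn (lineOf p) (fun x hx => ?_) ?_
    · obtain ⟨hxS, hxl⟩ := mem_filter.1 hx
      exact mem_coe.2 (mem_image_of_mem _ (mem_erase.2 ⟨fun he => hpl (he ▸ hxl), hxS⟩))
    · intro x hx y hy he
      obtain ⟨-, hxl⟩ := mem_filter.1 (mem_coe.1 hx)
      obtain ⟨-, hyl⟩ := mem_filter.1 (mem_coe.1 hy)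
      by_contra hxy
      have hy' : y ∈ lineOf p x := he ▸ ⟨1, by simp⟩
      obtain ⟨a, rfl⟩ := hxl
      obtain ⟨b, rfl⟩ := hyl
      obtain ⟨t, ht⟩ := hy'
      simp only at ht hxy
      apply hpl
      have ht1 : t ≠ 1 := by
        rintro rfl
        exact hxy (by rw [← ht]; simp)
      refine ⟨(b - t * a) / (1 - t), funext fun i => ?_⟩
      have := congrFun ht i
      simp only [Pi.add_apply, Pi.smul_apply, Pi.sub_apply, smul_eq_mul] at this ⊢
      field_simp [sub_ne_zero.2 ht1.symm]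
      linarith
  · by_contra hcon
    push Not at hcon
    have hsub : S.offDiag.image (fun p => Set.range fun t : ℝ => p.1 + t • (p.2 - p.1)) ⊆
        S.biUnion fun p => (S.erase p).image (lineOf p) := by
      intro l hl
      obtain ⟨⟨a, b⟩, hab, rfl⟩ := mem_image.1 hl
      obtain ⟨ha, hb, hne⟩ := mem_offDiag.1 hab
      exact mem_biUnion.2 ⟨a, ha, mem_image.2 ⟨b, mem_erase.2 ⟨hne.symm, hb⟩, rfl⟩⟩
    have h1 : ((S.offDiag.image fun p => Set.range fun t : ℝ => p.1 + t • (p.2 - p.1)).card : ℝ) <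
        S.card * (1 / C * S.card) := by
      refine lt_of_le_of_lt (Nat.cast_le.2 ((card_le_card hsub).trans card_biUnion_le)) ?_
      rw [Nat.cast_sum, ← nsmul_eq_mul, ← sum_const]
      exact sum_lt_sum_of_nonempty hne hcon
    have h2 : C * (S.card * (1 / C * S.card)) = (S.card : ℝ) ^ 2 := by field_simp
    nlinarith

end FA.IncidenceCor
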